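import Fermat.Agent.S48.M.Fld.DegreeUpper
import Fermat.Agent.S24.Degree

/-!
# S48 / layer M / FLD : `[FL L : Kb(j)] = [SL(2,ℤ) : L.Γ]`   (port of `S24/Degree.lean`; helper18)
-/

set_option autoImplicit false

open UpperHalfPlane ModularForm EisensteinSeries WithZero ModularCurve AlgebraicCurve
open IntermediateField
open Fermat.Agent.S24 Fermat.Agent.S29
open scoped MatrixGroups Manifold

noncomputable section

namespace Fermat.Agent.S48.M

variable (L : Lvl)

/-- the conjugate embeddings, indexed by cosets -/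
def sigmaL (q : QL L) : FL L →+* Mer :=
  (merAct q.out).toRingHom.comp (iotaL L)

theorem sigmaL_apply (q : QL L) (θ : FL L) : sigmaL L q θ = merAct q.out (iotaL L θ) := rfl

theorem sigmaL_mk (g : SL(2, ℤ)) (θ : FL L) :
    sigmaL L (g : QL L) θ = merAct g (iotaL L θ) := by
  obtain ⟨h, hh⟩ := QuotientGroup.mk_out_eq_mul L.Γ g
  show merAct (g : QL L).out (iotaL L θ) = _
  rw [hh, merAct_mul, merAct_iotaL_of_mem L h.2]

theorem sigmaL_smul (g : SL(2, ℤ)) (q : QL L) (θ : FL L) :
    sigmaL L (g • q) θ = merAct g (sigmaL L q θ) := by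
  induction q using QuotientGroup.induction_on with
  | H g' =>
    have : g • (g' : QL L) = ((g * g' : SL(2, ℤ)) : QL L) := rfl
    rw [this, sigmaL_mk, sigmaL_mk, merAct_mul]

theorem sigmaL_injective : Function.Injective (sigmaL L) := by
  intro q q' h
  induction q using QuotientGroup.induction_on with
  | H g =>
    induction q' using QuotientGroup.induction_on with
    | H g' =>
      rw [QuotientGroup.eq]
      apply mem_of_merActL
      intro z hz
      have h1 := congrArg (fun f => f (ratL L z (gens_le L hz))) h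
      simp only [sigmaL_mk] at h1
      rw [merAct_mul, ← h1, ← merAct_mul, inv_mul_cancel, merAct_one]
      rfl

theorem isAlgebraic_FL (θ : FL L) : IsAlgebraic Kb⟮jL L⟯ θ := by
  obtain ⟨R, hR, -, h0⟩ := exists_poly_FL L θ
  exact ⟨R, hR, h0⟩

theorem finiteDimensional_FL : FiniteDimensional Kb⟮jL L⟯ (FL L) :=
  finiteDimensional_of_gens (jL L) _ (finite_gensL L) (adjoin_gensL L) (isAlgebraic_FL L)

theorem sigmaL_algebraMap (q : QL L) (a : Kb) :
    sigmaL L q (algebraMap Kb (FL L) a) = algebraMap ℂ Mer (kappa a) := by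
  rw [sigmaL_apply, iotaL_algebraMap, merAct_const]

theorem sigmaL_jL (q : QL L) : sigmaL L q (jL L) = iotaL L (jL L) := by
  rw [sigmaL_apply, iotaL_jL, merAct_algebraMap, holAct_jH]

theorem finrank_FL : Module.finrank Kb⟮jL L⟯ (FL L) = Nat.card (QL L) := by
  have := finite_QL L
  apply le_antisymm
  · exact finrank_le_of_poly (jL L) _ (finiteDimensional_FL L) (exists_poly_FL L)
  · exact card_le_finrank_of_embeddings (jL L) (finiteDimensional_FL L) (sigmaL L)
      (sigmaL_injective L) (fun i j a => by rw [sigmaL_algebraMap, sigmaL_algebraMap])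
      (fun i j => by rw [sigmaL_jL, sigmaL_jL])

end Fermat.Agent.S48.M
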