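import Fermat.Agent.S48.M.Fld.Quot
import Fermat.Agent.S24.CuspCore

/-!
# S48 / layer M / FLD : `L.Γ` is the stabiliser of `iotaL L (FL L)`   (port of `S24/DegreeA.lean`; helper18)
-/

set_option autoImplicit false

open UpperHalfPlane ModularForm EisensteinSeries WithZero ModularCurve AlgebraicCurve
open IntermediateField Filter Topology
open Fermat.Agent.S24 Fermat.Agent.S29
open scoped MatrixGroups Manifold Real

noncomputable section

namespace Fermat.Agent.S48.M

theorem slash_eq_of_memL {Γ : Subgroup SL(2, ℤ)} {k : ℤ}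
    (A : ModularForm (Γ : Subgroup (GL (Fin 2) ℝ)) k) {γ : SL(2, ℤ)} (hγ : γ ∈ Γ) :
    (A : ℍ → ℂ) ∣[k] γ = A := by
  rw [SL_slash]
  exact SlashInvariantForm.slash_action_eqn A _ ⟨γ, hγ, rfl⟩

theorem apply_smul_of_memL {Γ : Subgroup SL(2, ℤ)} {k : ℤ}
    (A : ModularForm (Γ : Subgroup (GL (Fin 2) ℝ)) k) {γ : SL(2, ℤ)} (hγ : γ ∈ Γ) (τ : ℍ) :
    A (γ • τ) = A τ * denom γ τ ^ k := by
  have h := congrFun (slash_eq_of_memL A hγ) τ
  rw [SL_slash_apply] at h
  have hd : denom γ τ ≠ 0 := denom_ne_zero _ _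
  rw [← h, mul_assoc, ← zpow_add₀ hd, neg_add_cancel, zpow_zero, mul_one]

theorem algebraMap_Hol_ne_zero {f : Hol} (hf : f ≠ 0) : algebraMap Hol Mer f ≠ 0 := by
  intro h0
  exact hf (IsFractionRing.injective Hol Mer (by rw [h0, RingHom.map_zero]))

/-- a quotient of two modular forms of the same weight is invariant -/
theorem merAct_eq_of_quot {Γ : Subgroup SL(2, ℤ)} {k : ℤ}
    (A B : ModularForm (Γ : Subgroup (GL (Fin 2) ℝ)) k) (hB : B ≠ 0) {g : SL(2, ℤ)} (hg : g ∈ Γ)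
    (x : Mer) (hx : x * algebraMap Hol Mer (mfHol B) = algebraMap Hol Mer (mfHol A)) :
    merAct g x = x := by
  have h1 := congrArg (merAct g) hx
  rw [map_mul, merAct_algebraMap, merAct_algebraMap] at h1
  have hB0 : mfHol B ≠ 0 := by
    intro h
    apply hB
    ext τ
    exact congrFun (congrArg Subtype.val h) τ
  have hB' : algebraMap Hol Mer (mfHol B) ≠ 0 := algebraMap_Hol_ne_zero hB0
  have hB'' : algebraMap Hol Mer (holAct g (mfHol B)) ≠ 0 := by
    apply algebraMap_Hol_ne_zero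
    intro h
    exact hB0 ((holAct g).injective (by rw [h, map_zero]))
  have h2 : holAct g (mfHol A) * mfHol B = holAct g (mfHol B) * mfHol A := by
    ext τ
    show A (g⁻¹ • τ) * B τ = B (g⁻¹ • τ) * A τ
    rw [apply_smul_of_memL A (inv_mem hg), apply_smul_of_memL B (inv_mem hg)]
    ring
  have h3 := congrArg (algebraMap Hol Mer) h2
  rw [map_mul, map_mul, ← h1, ← hx] at h3
  have h4 : (algebraMap Hol Mer (holAct g (mfHol B)) * algebraMap Hol Mer (mfHol B)) * merAct g x =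
      (algebraMap Hol Mer (holAct g (mfHol B)) * algebraMap Hol Mer (mfHol B)) * x := by
    linear_combination h3
  exact mul_left_cancel₀ (mul_ne_zero hB'' hB') h4

theorem IsQuotL.merAct_eq {Γ : Subgroup SL(2, ℤ)} {x : Mer} (hx : IsQuotL Γ x) {g : SL(2, ℤ)}
    (hg : g ∈ Γ) : merAct g x = x := by
  obtain ⟨m, a, b, ⟨A, rfl⟩, ⟨B, rfl⟩, hb0, h⟩ := hx
  refine merAct_eq_of_quot A B ?_ hg x h
  rintro rfl
  exact hb0 rfl

variable (L : Lvl)

theorem merAct_iotaL_of_mem {g : SL(2, ℤ)} (hg : g ∈ L.Γ) (θ : FL L) :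
    merAct g (iotaL L θ) = iotaL L θ :=
  (isQuotL_iotaL L θ).merAct_eq hg

theorem mem_of_merActL {g : SL(2, ℤ)}
    (h : ∀ (z : LaurentSeries ℚ) (hz : z ∈ L.gens),
      merAct g (iotaL L (ratL L z (gens_le L hz))) = iotaL L (ratL L z (gens_le L hz))) :
    g ∈ L.Γ := by
  refine L.stab g fun x hx y hy => ?_
  rw [← iotaL_ratL L x (gens_le L hx) y hy]
  exact h x hx

end Fermat.Agent.S48.M
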