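import Fermat.Agent.S48.M.Fld.Degree
import Fermat.Agent.S24.Cusp

/-!
# S48 / layer M / FLD : poles of `j`   (port of `S24/Cusp.lean` + the end of `S24/CuspCore.lean`; helper18)
The width used for all cusps is `L.n` (`Γ(L.n) ≤ L.Γ`).
-/

set_option autoImplicit false

open UpperHalfPlane ModularForm EisensteinSeries WithZero ModularCurve AlgebraicCurve
open IntermediateField
open Fermat.Agent.S24 Fermat.Agent.S29 Fermat.Agent.S24.Cusp
open scoped MatrixGroups Manifold

noncomputable section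

namespace Fermat.Agent.S48.M

variable (L : Lvl)

instance instNeZeroLvl : NeZero L.n := ⟨L.n_ne⟩

namespace Cusp

theorem conj_T_pow_memL (g : SL(2, ℤ)) :
    g * ModularGroup.T ^ (L.n : ℤ) * g⁻¹ ∈ L.Γ := by
  have h1 : ModularGroup.T ^ (L.n : ℤ) ∈ CongruenceSubgroup.Gamma L.n :=
    CongruenceSubgroup.ModularGroup_T_pow_mem_Gamma L.n L.n dvd_rfl
  exact L.Gamma_le ((CongruenceSubgroup.Gamma_normal L.n).conj_mem _ h1 g)

/-- the slash of a modular form of level `Γ₀(N)` by an element of `SL(2,ℤ)` -/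
def slashBL {k : ℤ} (A : ModularForm (L.Γ : Subgroup (GL (Fin 2) ℝ)) k)
    (g : SL(2, ℤ)) : HolB L.n :=
  ⟨(A : ℍ → ℂ) ∣[k] g, by
    rw [SL_slash]
    exact (ModularFormClass.holo A).slash k _, by
    rw [periodic_iff]
    intro τ
    rw [← slash_T_zpow_apply k (L.n : ℤ) ((A : ℍ → ℂ) ∣[k] g) τ, ← SlashAction.slash_mul]
    have h1 : g * ModularGroup.T ^ (L.n : ℤ) = (g * ModularGroup.T ^ (L.n : ℤ) * g⁻¹) * g := by
      group
    rw [h1, SlashAction.slash_mul, slash_eq_of_memL A (conj_T_pow_memL L g)],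
    ModularFormClass.bdd_at_infty_slash A g⟩

theorem fn_slashBL {k : ℤ} (A : ModularForm (L.Γ : Subgroup (GL (Fin 2) ℝ)) k)
    (g : SL(2, ℤ)) (τ : ℍ) : fn (slashBL L A g) τ = A (g • τ) * denom g τ ^ (-k) := by
  show ((A : ℍ → ℂ) ∣[k] g) τ = _
  rw [SL_slash_apply]

theorem slashBL_ne_zero {k : ℤ}
    {A : ModularForm (L.Γ : Subgroup (GL (Fin 2) ℝ)) k} (hA : A ≠ 0) (g : SL(2, ℤ)) :
    slashBL L A g ≠ 0 := by
  intro h
  apply hA
  ext τ
  have h1 := congrFun (congrArg fn h) (g⁻¹ • τ)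
  rw [fn_slashBL, fn_zero, smul_inv_smul] at h1
  exact (mul_eq_zero.mp h1).resolve_right (zpow_ne_zero _ (denom_ne_zero _ _))

/-- quotients of modular forms, acted on by `SL(2,ℤ)`, lie in `MerB L.n` -/
theorem merAct_mem_rangeL {k : ℤ}
    (A B : ModularForm (L.Γ : Subgroup (GL (Fin 2) ℝ)) k) (hB : B ≠ 0) (g : SL(2, ℤ)) (x : Mer)
    (hx : x * algebraMap Hol Mer ⟨B, B.holo'⟩ = algebraMap Hol Mer ⟨A, A.holo'⟩) :
    merAct g x ∈ (emb L.n).range := by
  refine ⟨algebraMap (HolB L.n) (MerB L.n) (slashBL L A g⁻¹) /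
    algebraMap (HolB L.n) (MerB L.n) (slashBL L B g⁻¹), ?_⟩
  have h1 := congrArg (merAct g) hx
  rw [map_mul, merAct_algebraMap, merAct_algebraMap] at h1
  have hB' : algebraMap Hol Mer (toHol L.n (slashBL L B g⁻¹)) ≠ 0 := by
    intro h
    have h2 : toHol L.n (slashBL L B g⁻¹) = 0 :=
      IsFractionRing.injective Hol Mer (by rw [h, map_zero])
    exact slashBL_ne_zero L hB g⁻¹ (toHol_injective L.n (by rw [h2, map_zero]))
  have hB'' : algebraMap Hol Mer (holAct g ⟨B, B.holo'⟩) ≠ 0 := by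
    intro h
    have h2 : holAct g ⟨B, B.holo'⟩ = 0 :=
      IsFractionRing.injective Hol Mer (by rw [h, map_zero])
    have h3 : (⟨B, B.holo'⟩ : Hol) = 0 := (holAct g).injective (by rw [h2, map_zero])
    apply hB
    ext τ
    exact congrFun (congrArg Subtype.val h3) τ
  rw [map_div₀, emb_algebraMap, emb_algebraMap, div_eq_iff hB']
  have h2 : holAct g ⟨A, A.holo'⟩ * toHol L.n (slashBL L B g⁻¹) =
      holAct g ⟨B, B.holo'⟩ * toHol L.n (slashBL L A g⁻¹) := by
    ext τ
    show A (g⁻¹ • τ) * fn (slashBL L B g⁻¹) τ = B (g⁻¹ • τ) * fn (slashBL L A g⁻¹) τ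
    rw [fn_slashBL, fn_slashBL]
    ring
  have h3 := congrArg (algebraMap Hol Mer) h2
  rw [map_mul, map_mul, ← h1] at h3
  have h4 : algebraMap Hol Mer (holAct g ⟨B, B.holo'⟩) *
      (merAct g x * algebraMap Hol Mer (toHol L.n (slashBL L B g⁻¹))) =
      algebraMap Hol Mer (holAct g ⟨B, B.holo'⟩) *
        algebraMap Hol Mer (toHol L.n (slashBL L A g⁻¹)) := by
    linear_combination h3
  exact (mul_left_cancel₀ hB'' h4).symm

theorem sigmaL_mem_range (q : QL L) (θ : FL L) :
    sigmaL L q θ ∈ (emb L.n).range := by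
  obtain ⟨m, A, B, hB, h⟩ := exists_quotL L θ
  exact merAct_mem_rangeL L A B hB q.out (iotaL L θ) h

/-- the conjugate embeddings with values in `MerB L.n` -/
def sigmaBL (q : QL L) : FL L →+* MerB L.n :=
  (embEquiv L.n).symm.toRingHom.comp ((sigmaL L q).codRestrict (emb L.n).range (sigmaL_mem_range L q))

theorem emb_sigmaBL (q : QL L) (θ : FL L) :
    emb L.n (sigmaBL L q θ) = sigmaL L q θ := by
  have h : embEquiv L.n (sigmaBL L q θ) =
      (sigmaL L q).codRestrict (emb L.n).range (sigmaL_mem_range L q) θ :=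
    (embEquiv L.n).apply_symm_apply _
  exact congrArg Subtype.val h

theorem sigmaBL_injective : Function.Injective (sigmaBL L) := by
  intro i j h
  apply sigmaL_injective L
  ext θ
  rw [← emb_sigmaBL, ← emb_sigmaBL, h]

theorem sigmaBL_algebraMap (q : QL L) (a : Kb) :
    sigmaBL L q (algebraMap Kb (FL L) a) =
      algebraMap (HolB L.n) (MerB L.n) (algebraMap ℂ (HolB L.n) (kappa a)) := by
  apply emb_injective L.n
  rw [emb_sigmaBL, emb_const]
  show merAct q.out (iotaL L (algebraMap Kb (FL L) a)) = _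
  rw [iotaL_algebraMap, merAct_const]

theorem sigmaBL_jL (q : QL L) : sigmaBL L q (jL L) = jB L.n := by
  apply emb_injective L.n
  rw [emb_sigmaBL, emb_jB]
  rw [sigmaL_apply, iotaL_jL, merAct_algebraMap, holAct_jH]

theorem adjoin_invL : Kb⟮(jL L)⁻¹⟯ = Kb⟮jL L⟯ := by
  apply le_antisymm
  · rw [adjoin_simple_le_iff]
    exact inv_mem (mem_adjoin_simple_self Kb (jL L))
  · rw [adjoin_simple_le_iff]
    have := inv_mem (mem_adjoin_simple_self Kb (jL L)⁻¹)
    rwa [inv_inv] at this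

end Cusp

open Cusp in
theorem card_poles_jL :
    Nat.card {v : Place Kb (FL L) // v.ord (jL L) < 0} =
      Nat.card (MulAction.orbitRel.Quotient (Subgroup.zpowers ModularGroup.T) (QL L)) := by
  have hy : Transcendental Kb (jL L)⁻¹ := fun h =>
    transcendental_jL L (by simpa using h.inv)
  have hfin : FiniteDimensional Kb⟮(jL L)⁻¹⟯ (FL L) := by
    rw [adjoin_invL]; exact finiteDimensional_FL L
  have hcard : Nat.card (QL L) = Module.finrank Kb⟮(jL L)⁻¹⟯ (FL L) := by
    rw [adjoin_invL]; exact (finrank_FL L).symm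
  have : Finite (QL L) := by
    apply Nat.finite_of_card_ne_zero
    rw [hcard]
    exact (Module.finrank_pos).ne'
  have key := card_zeroPlaces_eq_card_orbits (K := Kb) (F := FL L) (jL L)⁻¹ hy hfin (wB L.n)
    (sigmaBL L) (sigmaBL_injective L) hcard
    (fun i j a => by rw [sigmaBL_algebraMap, sigmaBL_algebraMap])
    (fun i j => by rw [map_inv₀, map_inv₀, sigmaBL_jL, sigmaBL_jL])
    (fun i a => by rw [sigmaBL_algebraMap]; exact wB_const_le L.n _)
    L.n (Nat.pos_of_ne_zero L.n_ne)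
    (fun i => by rw [map_inv₀, map_inv₀, sigmaBL_jL, wB_jB, ← exp_neg])
    ModularGroup.T
    (fun i f => by
      apply wB_eq_of_merAct L.n 1
      rw [emb_sigmaBL, emb_sigmaBL, sigmaL_smul, zpow_one])
    (fun i f hf => by
      apply dvd_of_merAct L.n
      · exact (map_ne_zero _).mpr hf
      · rw [emb_sigmaBL, zpow_natCast, ← sigmaL_smul]
        congr 2
        have := Function.iterate_minimalPeriod (f := (ModularGroup.T • · : QL L → QL L)) (x := i)
        rwa [smul_iterate] at this)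
  exact (Nat.card_congr (Equiv.subtypeEquivRight fun v => by rw [Place.ord_inv]; omega)).trans key

end Fermat.Agent.S48.M
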