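import Fermat.Agent.S48.M.Fld.Degree
import Fermat.Agent.S24.Interior

/-!
# S48 / layer M / FLD : zeros of `j - c`   (port of `S24/Interior.lean`; helper18)
-/

set_option autoImplicit false

open UpperHalfPlane ModularForm EisensteinSeries WithZero ModularCurve AlgebraicCurve
open IntermediateField
open Fermat.Agent.S24 Fermat.Agent.S29
open scoped MatrixGroups Manifold

noncomputable section

namespace Fermat.Agent.S48.M

variable (L : Lvl)

theorem sigmaL_jL_sub (q : QL L) (c : Kb) :
    sigmaL L q (jL L - algebraMap Kb (FL L) c) =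
      algebraMap Hol Mer (jH - algebraMap ℂ Hol (kappa c)) := by
  rw [RingHom.map_sub, sigmaL_algebraMap, sigmaL_apply, iotaL_jL, merAct_algebraMap, holAct_jH,
    RingHom.map_sub, ← IsScalarTower.algebraMap_apply ℂ Hol Mer]

theorem finiteDimensional_subL (c : Kb) :
    FiniteDimensional Kb⟮jL L - algebraMap Kb (FL L) c⟯ (FL L) := by
  rw [adjoin_sub_const]
  exact finiteDimensional_FL L

theorem finrank_subL (c : Kb) :
    Module.finrank Kb⟮jL L - algebraMap Kb (FL L) c⟯ (FL L) = Nat.card (QL L) := by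
  rw [adjoin_sub_const]
  exact finrank_FL L

theorem ord_jL_sub_eq_one (c : Kb) (h0 : c ≠ 0) (h1 : c ≠ 1728)
    (v : Place Kb (FL L)) (hv : 0 < v.ord (jL L - algebraMap Kb (FL L) c)) :
    v.ord (jL L - algebraMap Kb (FL L) c) = 1 := by
  obtain ⟨τ, hτ⟩ := exists_jH_eq (kappa c)
  have hk0 : kappa c ≠ 0 := (map_ne_zero kappa).mpr h0
  have hk1 : kappa c ≠ 1728 := by
    intro h
    apply h1
    apply kappa.injective
    rw [h, map_ofNat]
  have hval := holVal_jH_sub τ (by rw [hτ]; exact hk0) (by rw [hτ]; exact hk1)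
  rw [hτ] at hval
  refine ord_eq_one_of_embeddings (jL L - algebraMap Kb (FL L) c)
    (transcendental_sub_const _ _ (transcendental_jL L)) (finiteDimensional_subL L c)
    (ordAt τ) (sigmaL L) (sigmaL_injective L) (finrank_subL L c).symm ?_ ?_ ?_ ?_ v hv
  · intro i j a
    rw [sigmaL_algebraMap, sigmaL_algebraMap]
  · intro i j
    rw [sigmaL_jL_sub, sigmaL_jL_sub]
  · intro i a
    rw [sigmaL_algebraMap]
    exact ordAt_const _ _
  · intro i
    rw [sigmaL_jL_sub, ordAt_algebraMap, hval]

theorem card_zeros_auxL (c : Kb) (τ : ℍ) (E : ℕ) (hE : 0 < E) (g : SL(2, ℤ))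
    (hfix : g • τ = τ)
    (hval : holVal τ (jH - algebraMap ℂ Hol (kappa c)) = exp (-(E : ℤ)))
    (hdiv : ∀ (h : ℕ) (x : Mer), x ≠ 0 → merAct (g ^ h) x = x →
      (E : ℤ) ∣ (h : ℤ) * log (ordAt τ x)) :
    Nat.card {v : Place Kb (FL L) // 0 < v.ord (jL L - algebraMap Kb (FL L) c)} =
      Nat.card (MulAction.orbitRel.Quotient (Subgroup.zpowers g) (QL L)) := by
  refine card_zeroPlaces_eq_card_orbits (jL L - algebraMap Kb (FL L) c)
    (transcendental_sub_const _ _ (transcendental_jL L)) (finiteDimensional_subL L c)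
    (ordAt τ) (sigmaL L) (sigmaL_injective L) (finrank_subL L c).symm ?_ ?_ ?_ E hE ?_ g ?_ ?_
  · intro i j a
    rw [sigmaL_algebraMap, sigmaL_algebraMap]
  · intro i j
    rw [sigmaL_jL_sub, sigmaL_jL_sub]
  · intro i a
    rw [sigmaL_algebraMap]
    exact ordAt_const _ _
  · intro i
    rw [sigmaL_jL_sub, ordAt_algebraMap, hval]
  · intro i f
    rw [sigmaL_smul, ordAt_merAct]
    congr 2
    rw [inv_smul_eq_iff, hfix]
  · intro i f hf
    apply hdiv
    · exact (map_ne_zero _).mpr hf
    · rw [← sigmaL_smul]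
      have := Function.iterate_minimalPeriod (f := (g • · : QL L → QL L)) (x := i)
      rw [smul_iterate] at this
      have h2 : g ^ Function.minimalPeriod (fun x : QL L => g • x) i • i = i := this
      rw [h2]

theorem card_zeros_jL_sub_1728 :
    Nat.card {v : Place Kb (FL L) // 0 < v.ord (jL L - algebraMap Kb (FL L) 1728)} =
      Nat.card (MulAction.orbitRel.Quotient (Subgroup.zpowers ModularGroup.S) (QL L)) := by
  refine card_zeros_auxL L 1728 I 2 (by norm_num) ModularGroup.S S_smul_I ?_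
    two_dvd_of_merAct_S_pow
  rw [map_ofNat, holVal_jH_sub_I]
  rfl

theorem card_zeros_jL :
    Nat.card {v : Place Kb (FL L) // 0 < v.ord (jL L - algebraMap Kb (FL L) 0)} =
      Nat.card (MulAction.orbitRel.Quotient
        (Subgroup.zpowers (ModularGroup.S * ModularGroup.T)) (QL L)) := by
  refine card_zeros_auxL L 0 rho 3 (by norm_num) (ModularGroup.S * ModularGroup.T) ST_smul_rho ?_
    three_dvd_of_merAct_ST_pow
  rw [map_zero, map_zero, sub_zero, holVal_jH_rho]
  rfl

end Fermat.Agent.S48.M
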