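import Fermat.Agent.S48.M.Fld.DegreeA
import Fermat.Prelude.Thm_ModularForm_sturm_bound_of_isArithmetic

/-!
# S48 / layer M / FLD : `[FL L : Kb(j)] ≤ [SL(2,ℤ) : L.Γ]`   (port of `S24/DegreeUpper.lean`; helper18)
-/

set_option autoImplicit false

open UpperHalfPlane ModularForm EisensteinSeries WithZero ModularCurve AlgebraicCurve
open IntermediateField Filter Topology
open Fermat.Agent.S24 Fermat.Agent.S29
open scoped MatrixGroups Manifold Real

noncomputable section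

namespace Fermat.Agent.S48.M

/-- a modular form of level one as a modular form on `Γ` -/
def restrictL (Γ : Subgroup SL(2, ℤ)) {k : ℤ} (F : ModularForm 𝒮ℒ k) :
    ModularForm (Γ : Subgroup (GL (Fin 2) ℝ)) k where
  toFun := F
  slash_action_eq' := by
    rintro γ ⟨g, -, rfl⟩
    exact F.slash_action_eq' _ ⟨g, rfl⟩
  holo' := F.holo'
  bdd_at_cusps' hc := F.bdd_at_cusps' (hc.mono (Subgroup.map_le_range _ _))

theorem IsMFH.of_levelOneL (Γ : Subgroup SL(2, ℤ)) {k : ℤ} (F : ModularForm 𝒮ℒ k) :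
    IsMFH (Γ : Subgroup (GL (Fin 2) ℝ)) k (mfHol F) := ⟨restrictL Γ F, rfl⟩

open Polynomial in
theorem exists_poly_of_not_linearIndependent_gen {K F : Type*} [Field K] [Field F] [Algebra K F]
    (x θ : F) (hx : Transcendental K x) (s p : ℕ)
    (hs : ¬ LinearIndependent K (fun i : Fin (s + 1) × Fin (p + 1) =>
      x ^ (i.1 : ℕ) * θ ^ (i.2 : ℕ))) :
    ∃ R : Polynomial K⟮x⟯, R ≠ 0 ∧ R.natDegree ≤ p ∧ Polynomial.aeval θ R = 0 := by
  rw [Fintype.not_linearIndependent_iff] at hs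
  obtain ⟨d, hd, ⟨i₀, hi₀⟩⟩ := hs
  let γ : K⟮x⟯ := AdjoinSimple.gen K (x)
  let P : Fin (p + 1) → Polynomial K := fun b => ∑ a : Fin (s + 1), C (d (a, b)) * X ^ (a : ℕ)
  let R : Polynomial K⟮x⟯ := ∑ b : Fin (p + 1), C (aeval γ (P b)) * X ^ (b : ℕ)
  have hcoeffP : ∀ (b : Fin (p + 1)) (a : Fin (s + 1)), (P b).coeff a = d (a, b) := by
    intro b a
    simp only [P, finsetSum_coeff, coeff_C_mul_X_pow]
    rw [Finset.sum_eq_single a]
    · simp
    · intro a' _ ha'
      rw [if_neg]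
      intro h
      exact ha' (Fin.ext h.symm)
    · simp
  have hcoeffR : ∀ b : Fin (p + 1), R.coeff b = aeval γ (P b) := by
    intro b
    simp only [R, finsetSum_coeff, coeff_C_mul_X_pow]
    rw [Finset.sum_eq_single b]
    · simp
    · intro b' _ hb'
      rw [if_neg]
      intro h
      exact hb' (Fin.ext h.symm)
    · simp
  have hγ : ∀ Q : Polynomial K, algebraMap K⟮x⟯ (F) (aeval γ Q) = aeval (x) Q := by
    intro Q
    rw [← aeval_algebraMap_apply, AdjoinSimple.algebraMap_gen]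
  refine ⟨R, ?_, ?_, ?_⟩
  · intro hR
    have h1 : aeval γ (P i₀.2) = 0 := by rw [← hcoeffR, hR]; simp
    have h2 : aeval (x) (P i₀.2) = 0 := by rw [← hγ, h1, map_zero]
    have h3 : P i₀.2 = 0 := (transcendental_iff.mp hx) _ h2
    apply hi₀
    have := hcoeffP i₀.2 i₀.1
    rw [h3] at this
    simpa using this.symm
  · apply natDegree_sum_le_of_forall_le
    intro b _
    exact (natDegree_C_mul_X_pow_le _ _).trans (Nat.lt_succ_iff.mp b.2)
  · have e1 : aeval θ R = ∑ b : Fin (p + 1), aeval (x) (P b) * θ ^ (b : ℕ) := by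
      simp only [R, map_sum, map_mul, aeval_C, map_pow, aeval_X]
      refine Finset.sum_congr rfl fun b _ => ?_
      rw [hγ]
    rw [e1, ← hd, Fintype.sum_prod_type_right]
    refine Finset.sum_congr rfl fun b _ => ?_
    simp only [P, map_sum, map_mul, aeval_C, map_pow, aeval_X]
    rw [Finset.sum_mul]
    refine Finset.sum_congr rfl fun a _ => ?_
    rw [Algebra.smul_def]
    ring

variable (L : Lvl)

theorem finiteIndexL : L.Γ.FiniteIndex := by
  have : NeZero L.n := ⟨L.n_ne⟩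
  exact Subgroup.finiteIndex_of_le L.Gamma_le

instance instFiniteIndexL : L.Γ.FiniteIndex := finiteIndexL L

theorem finite_QL : Finite (QL L) := Subgroup.finite_quotient_of_finiteIndex

theorem one_mem_strictPeriodsL : (1 : ℝ) ∈ (L.Γ : Subgroup (GL (Fin 2) ℝ)).strictPeriods := by
  rw [Subgroup.strictPeriods_eq_zmultiples_one_of_T_mem L.T_mem]
  exact AddSubgroup.mem_zmultiples (1 : ℝ)

theorem relIndex_mapGL (Γ : Subgroup SL(2, ℤ)) :
    (Γ : Subgroup (GL (Fin 2) ℝ)).relIndex 𝒮ℒ = Γ.index := by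
  rw [← Subgroup.index_comap,
    Subgroup.comap_map_eq_self_of_injective Matrix.SpecialLinearGroup.mapGL_injective]

theorem sturm_boundL {k : ℤ} (f : ModularForm (L.Γ : Subgroup (GL (Fin 2) ℝ)) k)
    (h : ∀ n : ℕ, n ≤ (k * L.Γ.index).toNat / 12 → (qExpansion 1 f).coeff n = 0) : f = 0 := by
  refine ModularForm.sturm_bound_of_isArithmetic (one_mem_strictPeriodsL L) ?_
  rw [relIndex_mapGL]
  refine lt_of_lt_of_le (by exact_mod_cast Nat.lt_succ_self _)
    (PowerSeries.nat_le_order _ _ fun n hn ↦ ?_)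
  exact h n (by lia)

/-- the first `B + 1` coefficients of the `q`-expansion -/
def coeffMapL (k : ℤ) (B : ℕ) :
    ModularForm (L.Γ : Subgroup (GL (Fin 2) ℝ)) k →ₗ[ℂ] (Fin (B + 1) → ℂ) where
  toFun f := fun n => (qExpansion 1 f).coeff n
  map_add' f g := by
    ext n
    have := ModularForm.qExpansion_add one_pos (one_mem_strictPeriodsL L) f g
    simp only [Pi.add_apply]
    rw [← map_add, ← this]
    rfl
  map_smul' c f := by
    ext n
    have := ModularForm.qExpansion_smul one_pos (one_mem_strictPeriodsL L) c f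
    simp only [Pi.smul_apply, RingHom.id_apply]
    rw [← PowerSeries.coeff_smul, ← this]
    rfl

theorem coeffMapL_injective (M : ℕ) :
    Function.Injective (coeffMapL L (12 * M) (M * Nat.card (QL L))) := by
  rw [← LinearMap.ker_eq_bot, LinearMap.ker_eq_bot']
  intro f hf
  apply sturm_boundL L f
  intro n hn
  have hidx : L.Γ.index = Nat.card (QL L) := rfl
  have hb : ((12 * (M : ℤ)) * (L.Γ.index : ℤ)).toNat / 12
      = M * Nat.card (QL L) := by
    rw [hidx]
    have : (12 * (M : ℤ)) * (Nat.card (QL L) : ℤ) = ((12 * (M * Nat.card (QL L)) : ℕ) : ℤ) := by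
      push_cast; ring
    rw [this, Int.toNat_natCast, Nat.mul_div_cancel_left _ (by norm_num)]
  rw [hb] at hn
  exact congrFun hf ⟨n, Nat.lt_succ_of_le hn⟩

theorem not_linearIndependent_of_isMFHL (M : ℕ) {ι : Type*} [Fintype ι]
    (h : ι → Hol) (hh : ∀ i, IsMFH (L.Γ : Subgroup (GL (Fin 2) ℝ)) (12 * M) (h i))
    (hcard : M * Nat.card (QL L) + 1 < Fintype.card ι) : ¬ LinearIndependent ℂ h := by
  intro hli
  choose F hF using hh
  have h1 : h = mfHolₗ _ (12 * M) ∘ F := by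
    ext1 i; exact (hF i).symm
  rw [h1] at hli
  have h2 : LinearIndependent ℂ F := hli.of_comp
  have h3 := h2.map' _ (LinearMap.ker_eq_bot.mpr (coeffMapL_injective L M))
  have h4 := h3.fintype_card_le_finrank
  rw [Module.finrank_fin_fun] at h4
  omega

theorem card_QL_pos : 0 < Nat.card (QL L) := by
  have : Finite (QL L) := Subgroup.finite_quotient_of_finiteIndex
  exact Nat.card_pos

theorem isMFH_famHL (m : ℕ) {A B : Hol}
    (hA : IsMFH (L.Γ : Subgroup (GL (Fin 2) ℝ)) (12 * m) A)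
    (hB : IsMFH (L.Γ : Subgroup (GL (Fin 2) ℝ)) (12 * m) B) (s p : ℕ)
    (i : Fin (s + 1) × Fin (p + 1)) :
    IsMFH (L.Γ : Subgroup (GL (Fin 2) ℝ)) (12 * ((s + m * p : ℕ) : ℤ)) (famH A B s p i) := by
  have h4 : IsMFH (L.Γ : Subgroup (GL (Fin 2) ℝ)) 4 E4H := IsMFH.of_levelOneL L.Γ E₄
  have hΔ : IsMFH (L.Γ : Subgroup (GL (Fin 2) ℝ)) 12 DeltaH :=
    IsMFH.of_levelOneL L.Γ (CuspForm.discriminant : ModularForm 𝒮ℒ 12)
  have h := ((h4.pow (3 * (i.1 : ℕ))).mul (hΔ.pow (s - (i.1 : ℕ)))).mul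
    ((hA.pow (i.2 : ℕ)).mul (hB.pow (p - (i.2 : ℕ))))
  have h1 : (i.1 : ℕ) ≤ s := Nat.lt_succ_iff.mp i.1.2
  have h2 : (i.2 : ℕ) ≤ p := Nat.lt_succ_iff.mp i.2.2
  have e : ((3 * (i.1 : ℕ) : ℕ) : ℤ) * 4 + ((s - (i.1 : ℕ) : ℕ) : ℤ) * 12 +
      (((i.2 : ℕ) : ℤ) * (12 * m) + ((p - (i.2 : ℕ) : ℕ) : ℤ) * (12 * m))
      = 12 * ((s + m * p : ℕ) : ℤ) := by
    push_cast [Nat.cast_sub h1, Nat.cast_sub h2]
    ring
  rw [e] at h
  exact h

theorem not_linearIndependent_powL (θ : FL L) :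
    ∃ s : ℕ, ¬ LinearIndependent ℂ (fun i : Fin (s + 1) × Fin (Nat.card (QL L) + 1) =>
      algebraMap Hol Mer jH ^ (i.1 : ℕ) * iotaL L θ ^ (i.2 : ℕ)) := by
  obtain ⟨m, A, B, hA, hB, hB0, hx⟩ := isQuotL_iotaL L θ
  set p := Nat.card (QL L) with hp
  have hp0 : 0 < p := card_QL_pos L
  refine ⟨m * p ^ 2, fun hli => ?_⟩
  set s := m * p ^ 2 with hs
  have hD : algebraMap Hol Mer (DeltaH ^ s * B ^ p) ≠ 0 := by
    have hΔ0 : DeltaH ≠ 0 := by
      intro h
      exact discriminant_ne_zero I (congrFun (congrArg Subtype.val h) I)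
    have : DeltaH ^ s * B ^ p ≠ 0 := mul_ne_zero (pow_ne_zero _ hΔ0) (pow_ne_zero _ hB0)
    exact algebraMap_Hol_ne_zero this
  have h1 := hli.map' (LinearMap.mulLeft ℂ (algebraMap Hol Mer (DeltaH ^ s * B ^ p)))
    (LinearMap.ker_eq_bot.mpr (mul_right_injective₀ hD))
  have h2 : (LinearMap.mulLeft ℂ (algebraMap Hol Mer (DeltaH ^ s * B ^ p))) ∘
      (fun i : Fin (s + 1) × Fin (p + 1) =>
        algebraMap Hol Mer jH ^ (i.1 : ℕ) * iotaL L θ ^ (i.2 : ℕ))
      = (IsScalarTower.toAlgHom ℂ Hol Mer).toLinearMap ∘ famH A B s p := by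
    ext1 i
    exact (algebraMap_famH hx s p i).symm
  rw [h2] at h1
  refine not_linearIndependent_of_isMFHL L (s + m * p) (famH A B s p)
    (isMFH_famHL L m hA hB s p) ?_ h1.of_comp
  rw [Fintype.card_prod, Fintype.card_fin, Fintype.card_fin, ← hp, hs]
  nlinarith

theorem not_linearIndependent_FL (θ : FL L) :
    ∃ s : ℕ, ¬ LinearIndependent Kb (fun i : Fin (s + 1) × Fin (Nat.card (QL L) + 1) =>
      jL L ^ (i.1 : ℕ) * θ ^ (i.2 : ℕ)) := by
  obtain ⟨s, hs⟩ := not_linearIndependent_powL L θ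
  refine ⟨s, fun hli => hs ?_⟩
  have h1 := (linearIndependent_equiv finProdFinEquiv.symm).mpr hli
  have h2 := iotaL_linearIndependent L _ _ h1
  have h3 := (linearIndependent_equiv finProdFinEquiv).mpr h2
  convert h3 using 1
  ext1 i
  simp only [Function.comp_apply, Equiv.symm_apply_apply, map_mul, map_pow, iotaL_jL]

theorem exists_poly_FL (θ : FL L) :
    ∃ R : Polynomial Kb⟮jL L⟯, R ≠ 0 ∧ R.natDegree ≤ Nat.card (QL L) ∧
      Polynomial.aeval θ R = 0 := by
  obtain ⟨s, hs⟩ := not_linearIndependent_FL L θ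
  exact exists_poly_of_not_linearIndependent_gen (jL L) θ (transcendental_jL L) s _ hs

end Fermat.Agent.S48.M
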