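import Fermat.Agent.S48.M.Lvl
import Fermat.Agent.S24.DegreeUpper

/-!
# S48 / layer M / FLD : the embedding `iotaL L : FL L →+* Mer`   (port of `S24/Iota.lean`; helper18)
-/

set_option autoImplicit false

open UpperHalfPlane ModularForm EisensteinSeries WithZero ModularCurve AlgebraicCurve
open Fermat.Agent.S24 Fermat.Agent.S29
open scoped MatrixGroups Manifold Topology

noncomputable section

namespace Fermat.Agent.S48.M

variable (L : Lvl)

theorem phiS_iotaQL (x : FL L) : phiS (iotaQL L x) = x.1 :=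
  RingHom.rangeRestrictFieldEquiv_apply_symm_apply phiS ⟨x.1, FL_le_range L x.1 x.2⟩

theorem iotaQL_eq (x : FL L) (y : Qq) (h : phiS y = x.1) : iotaQL L x = y :=
  phiS.injective (by rw [phiS_iotaQL, h])

theorem iotaL_apply (x : FL L) : iotaL L x = phiH (iotaQL L x) := rfl

theorem iotaL_eq (x : FL L) (y : Qq) (h : phiS y = x.1) : iotaL L x = phiH y := by
  rw [iotaL_apply, iotaQL_eq L x y h]

theorem iotaL_algebraMap (a : Kb) :
    iotaL L (algebraMap Kb (FL L) a) = algebraMap ℂ Mer (kappa a) := by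
  rw [iotaL_eq L _ _ (phiS_cstB a), phiH_cstB]

theorem iotaL_ratL (x : LaurentSeries ℚ) (hx : x ∈ L.F₀) (y : Qq) (hy : phiS y = coeffEmb Kb x) :
    iotaL L (ratL L x hx) = phiH y :=
  iotaL_eq L _ y hy

theorem iotaL_jL : iotaL L (jL L) = algebraMap Hol Mer jH := by
  have h : phiS (jQ 1) = coeffEmb Kb jq := by rw [phiS_jQ, qExpand_one_apply]
  rw [jL, iotaL_ratL L _ _ _ h, phiH_jQ, jHd_one]

theorem iotaL_linearIndependent (n : ℕ) (v : Fin n → FL L) (hv : LinearIndependent Kb v) :
    LinearIndependent ℂ (fun i => iotaL L (v i)) := by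
  rw [Fintype.linearIndependent_iff] at hv ⊢
  intro c hc
  obtain ⟨b, hb⟩ := IsLocalization.exist_integer_multiples_of_finite (nonZeroDivisors Bq)
    (fun i => iotaQL L (v i))
  choose a ha using hb
  have hb0 : algebraMap Bq Qq (b : Bq) ≠ 0 := by
    rw [Ne, IsFractionRing.to_map_eq_zero_iff]
    exact nonZeroDivisors.ne_zero b.2
  have ha' : ∀ i, algebraMap Bq Qq (a i) = algebraMap Bq Qq (b : Bq) * iotaQL L (v i) := by
    intro i
    rw [ha i, Algebra.smul_def]
  -- the analytic side
  have h1 : ∑ i, c i • prH (a i) = 0 := by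
    apply IsFractionRing.injective Hol Mer
    rw [map_zero, map_sum]
    have : ∀ i, algebraMap Hol Mer (c i • prH (a i)) =
        phiH (algebraMap Bq Qq (b : Bq)) * (c i • (phiH.comp (iotaQL L)) (v i)) := by
      intro i
      rw [Algebra.smul_def, map_mul, ← phiH_algebraMap, ha' i, map_mul, Algebra.smul_def,
        ← IsScalarTower.algebraMap_apply ℂ Hol Mer, RingHom.comp_apply]
      ring
    simp only [this]
    rw [← Finset.mul_sum]
    have hc' : ∑ i, c i • (phiH.comp (iotaQL L)) (v i) = 0 := hc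
    rw [hc', mul_zero]
  have h2 : ∑ i, c i • (a i).1.1 = 0 := by
    have := congrArg Subtype.val h1
    simp only [AddSubmonoidClass.coe_finsetSum, SetLike.val_smul, ZeroMemClass.coe_zero] at this
    exact this
  have h3 : ∑ i, c i • ((a i).1.2).map kappa = 0 := by
    have := (isQ_sum_smul Finset.univ c (fun i => (a i).1.1) (fun i => (a i).2.1)).2
    rw [h2, qExpansion_zero] at this
    rw [this]
    exact Finset.sum_congr rfl fun i _ => by rw [(a i).2.2]
  refine linearIndependent_aux n (fun i => (a i).1.2) ?_ c h3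
  intro l hl
  apply hv
  apply Subtype.ext
  have hB : phiS (algebraMap Bq Qq (b : Bq)) ≠ 0 := (map_ne_zero phiS).mpr hb0
  apply mul_left_cancel₀ hB
  have h4 := congrArg (HahnSeries.ofPowerSeries ℤ Kb) hl
  rw [map_sum, map_zero] at h4
  rw [ZeroMemClass.coe_zero, mul_zero, ← h4, AddSubmonoidClass.coe_finsetSum, Finset.mul_sum]
  refine Finset.sum_congr rfl fun i _ => ?_
  have h5 : HahnSeries.ofPowerSeries ℤ Kb (a i).1.2 =
      phiS (algebraMap Bq Qq (b : Bq)) * (v i).1 := by
    rw [← phiS_iotaQL, ← map_mul, ← ha' i, phiS_algebraMap]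
    rfl
  rw [map_mul, h5, HahnSeries.ofPowerSeries_C]
  have h6 : ((l i • v i : FL L) : LaurentSeries Kb) =
      algebraMap Kb (LaurentSeries Kb) (l i) * (v i).1 := by
    rw [Algebra.smul_def]; rfl
  rw [h6, algebraMap_laurentSeries_eq_single]
  show _ = HahnSeries.single 0 (l i) * _
  ring

/-- the generators of `FL L` over `Kb` -/
def gensL : Set (FL L) := {x | ∃ (z : LaurentSeries ℚ) (hz : z ∈ L.gens), x = ratL L z (gens_le L hz)}

theorem finite_gensL : (gensL L).Finite := by
  have := L.gens_finite.to_subtype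
  refine (Set.finite_range (fun z : L.gens => ratL L z.1 (gens_le L z.2))).subset ?_
  rintro x ⟨z, hz, rfl⟩
  exact ⟨⟨z, hz⟩, rfl⟩

theorem adjoin_gensL : IntermediateField.adjoin Kb (gensL L) = ⊤ := by
  rw [eq_top_iff]
  rintro ⟨x, hx⟩ -
  have := mem_of_FL L ((IntermediateField.adjoin Kb (gensL L)).map (barL L).val).toSubfield
    (fun a => IntermediateField.algebraMap_mem _ a)
    (fun z hz => ⟨ratL L z (gens_le L hz), IntermediateField.subset_adjoin _ _ ⟨z, hz, rfl⟩, rfl⟩)
    x hx
  obtain ⟨y, hy, hxy⟩ := this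
  have : y = ⟨x, hx⟩ := Subtype.ext hxy
  rw [← this]
  exact hy

/-- induction over the generators -/
theorem induction_FL {P : FL L → Prop} (hg : ∀ (z : LaurentSeries ℚ) (hz : z ∈ L.gens),
      P (ratL L z (gens_le L hz)))
    (hc : ∀ a : Kb, P (algebraMap Kb (FL L) a)) (hadd : ∀ x y, P x → P y → P (x + y))
    (hinv : ∀ x, P x → P x⁻¹) (hmul : ∀ x y, P x → P y → P (x * y)) (θ : FL L) : P θ := by
  have hθ : θ ∈ IntermediateField.adjoin Kb (gensL L) := by
    rw [adjoin_gensL]; trivial
  induction hθ using IntermediateField.adjoin_induction with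
  | mem x hx =>
    obtain ⟨z, hz, rfl⟩ := hx
    exact hg z hz
  | algebraMap a => exact hc a
  | add x y _ _ hx hy => exact hadd x y hx hy
  | inv x _ hx => exact hinv x hx
  | mul x y _ _ hx hy => exact hmul x y hx hy

theorem transcendental_jL : Transcendental Kb (jL L) := by
  have h1 : algebraMap (FL L) (LaurentSeries Kb) (jL L) = jqModC Kb := by
    show coeffEmb Kb jq = jqModC Kb
    exact map_jqModC (algebraMap ℚ Kb)
  rw [← transcendental_algebraMap_iff (A := LaurentSeries Kb)
    (algebraMap (FL L) (LaurentSeries Kb)).injective, h1]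
  exact P2MW.S_ModularCurve_coeff_jqModC_neg_one.ModularCurve.CharLRows.transcendental_jqModC Kb

end Fermat.Agent.S48.M
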