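import Fermat.Agent.S48.M.Fld.DegreeUpper
import Fermat.Agent.S24.Orbits

/-!
# S48 / layer M / FLD : orbits on the coset space `QL L`   (port of the generic part of `S24/Orbits.lean`; helper18)
-/

set_option autoImplicit false

open ModularCurve Fermat.Agent.S24
open scoped MatrixGroups

noncomputable section

namespace Fermat.Agent.S48.M

variable (L : Lvl)

/-- number of orbits of the cyclic group generated by `g` on the coset space -/
def rOrbL (g : SL(2, ℤ)) : ℕ :=
  Nat.card (MulAction.orbitRel.Quotient (Subgroup.zpowers g) (QL L))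

theorem neg_one_smul_QL (x : QL L) : (-1 : SL(2, ℤ)) • x = x := by
  induction x using QuotientGroup.induction_on with | _ g => ?_
  rw [MulAction.Quotient.smul_coe, smul_eq_mul, QuotientGroup.eq]
  have : (-1 * g)⁻¹ * g = -1 := by
    rw [mul_inv_rev, mul_assoc]
    have h1 : ((-1 : SL(2, ℤ)))⁻¹ = -1 := by
      rw [inv_eq_iff_mul_eq_one]
      simp
    rw [h1, neg_one_mul, mul_neg, inv_mul_cancel]
  rw [this]
  exact L.neg_mem

theorem even_card_add_rOrbL :
    Even (Nat.card (QL L) + rOrbL L ModularGroup.S + rOrbL L (ModularGroup.S * ModularGroup.T)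
      + rOrbL L ModularGroup.T) := by
  have := finite_QL L
  exact Ree.even_card_add (X := QL L) ModularGroup.S ModularGroup.T

theorem rOrbL_add_le :
    rOrbL L ModularGroup.S + rOrbL L (ModularGroup.S * ModularGroup.T) + rOrbL L ModularGroup.T
      ≤ Nat.card (QL L) + 2 := by
  have := finite_QL L
  refine Ree.ree (X := QL L) ModularGroup.S ModularGroup.T ?_
  intro x y
  obtain ⟨g, hg⟩ := MulAction.exists_smul_eq SL(2, ℤ) x y
  exact ⟨g, by rw [SpecialLinearGroup.SL2Z_generators]; trivial, hg⟩

end Fermat.Agent.S48.M
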