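import Fermat.Agent.S48.M.Fld.Iota

/-!
# S48 / layer M / FLD : elements of `FL L` are quotients of modular forms   (port of `S24/Quot.lean`; helper18)
-/

set_option autoImplicit false

open UpperHalfPlane ModularForm EisensteinSeries WithZero ModularCurve AlgebraicCurve
open Fermat.Agent.S24 Fermat.Agent.S29
open scoped MatrixGroups Manifold

noncomputable section

namespace Fermat.Agent.S48.M

theorem IsQuotL.const (Γ : Subgroup SL(2, ℤ)) (c : ℂ) : IsQuotL Γ (algebraMap ℂ Mer c) := by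
  refine ⟨0, algebraMap ℂ Hol c, 1, ?_, ?_, one_ne_zero, ?_⟩
  · simpa using IsMFH.const c
  · simpa using IsMFH.const (Γ := (Γ : Subgroup (GL (Fin 2) ℝ))) 1
  · rw [map_one, mul_one]; rfl

theorem IsQuotL.zero (Γ : Subgroup SL(2, ℤ)) : IsQuotL Γ (0 : Mer) := by
  have h := IsQuotL.const Γ (0 : ℂ)
  have h0 : algebraMap ℂ Mer (0 : ℂ) = 0 := RingHom.map_zero _
  rw [h0] at h
  exact h

theorem IsQuotL.add {Γ : Subgroup SL(2, ℤ)} {x y : Mer} (hx : IsQuotL Γ x) (hy : IsQuotL Γ y) :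
    IsQuotL Γ (x + y) := by
  obtain ⟨m, a, b, ha, hb, hb0, h⟩ := hx
  obtain ⟨m', a', b', ha', hb', hb0', h'⟩ := hy
  have e : (12 * ((m + m' : ℕ) : ℤ)) = 12 * (m : ℤ) + 12 * (m' : ℤ) := by push_cast; ring
  refine ⟨m + m', a * b' + b * a', b * b', ?_, ?_, mul_ne_zero hb0 hb0', ?_⟩
  · rw [e]; exact (ha.mul hb').add (hb.mul ha')
  · rw [e]; exact hb.mul hb'
  · rw [map_mul, map_add, map_mul, map_mul, ← h, ← h']; ring

theorem IsQuotL.mul {Γ : Subgroup SL(2, ℤ)} {x y : Mer} (hx : IsQuotL Γ x) (hy : IsQuotL Γ y) :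
    IsQuotL Γ (x * y) := by
  obtain ⟨m, a, b, ha, hb, hb0, h⟩ := hx
  obtain ⟨m', a', b', ha', hb', hb0', h'⟩ := hy
  have e : (12 * ((m + m' : ℕ) : ℤ)) = 12 * (m : ℤ) + 12 * (m' : ℤ) := by push_cast; ring
  refine ⟨m + m', a * a', b * b', ?_, ?_, mul_ne_zero hb0 hb0', ?_⟩
  · rw [e]; exact ha.mul ha'
  · rw [e]; exact hb.mul hb'
  · rw [map_mul, map_mul, ← h, ← h']; ring

theorem IsQuotL.inv {Γ : Subgroup SL(2, ℤ)} {x : Mer} (hx : IsQuotL Γ x) : IsQuotL Γ x⁻¹ := by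
  by_cases hx0 : x = 0
  · rw [hx0, inv_zero]
    exact IsQuotL.zero Γ
  obtain ⟨m, a, b, ha, hb, hb0, h⟩ := hx
  have hb1 : algebraMap Hol Mer b ≠ 0 := by
    intro h0
    exact hb0 (IsFractionRing.injective Hol Mer (by rw [h0, RingHom.map_zero]))
  have ha0 : a ≠ 0 := by
    rintro rfl
    rw [map_zero] at h
    exact (mul_ne_zero hx0 hb1) h
  refine ⟨m, b, a, hb, ha, ha0, ?_⟩
  rw [← h]
  field_simp

variable (L : Lvl)

theorem isQuotL_iotaL (θ : FL L) : IsQuotL L.Γ (iotaL L θ) := by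
  induction θ using induction_FL with
  | hg z hz =>
    obtain ⟨y, hy, hq⟩ := L.lift z hz
    rw [iotaL_ratL L z _ y hy]
    exact hq
  | hc a =>
    rw [iotaL_algebraMap]
    exact IsQuotL.const _ _
  | hadd x y hx hy => rw [RingHom.map_add]; exact hx.add hy
  | hinv x hx => rw [map_inv₀]; exact hx.inv
  | hmul x y hx hy => rw [RingHom.map_mul]; exact hx.mul hy

/-- every element of the function field is a quotient of two modular forms of the same weight -/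
theorem exists_quotL (θ : FL L) :
    ∃ (m : ℕ) (A B : ModularForm (L.Γ : Subgroup (GL (Fin 2) ℝ)) (12 * m)), B ≠ 0 ∧
      iotaL L θ * algebraMap Hol Mer (mfHol B) = algebraMap Hol Mer (mfHol A) := by
  obtain ⟨m, a, b, ⟨A, rfl⟩, ⟨B, rfl⟩, hb0, h⟩ := isQuotL_iotaL L θ
  refine ⟨m, A, B, ?_, h⟩
  rintro rfl
  exact hb0 rfl

end Fermat.Agent.S48.M
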